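import Fermat.Agent.EC.Multiplicative.Line
import Fermat.Agent.EC.Reduction.Formal
import Mathlib.Algebra.Group.TypeTags.Basic
import Mathlib.GroupTheory.QuotientGroup.Defs

/-!
# The component homomorphism of a curve with nodal reduction

Points near the exact node have a component in the value group modulo twice the valuation of the
constant term. `comp` is additive (`comp_add`) and vanishes exactly on nonsingular reduction.
-/

set_option autoImplicit false

open WeierstrassCurve WeierstrassCurve.Affine

namespace Fermat.Agent.EC.Multiplicative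

open Fermat.Agent.EC.Reduction

variable {L : Type*} [Field L] {A : ValuationSubring L}
  {W : Affine L} {V : Affine (IsLocalRing.ResidueField A)}

/-- The constant term of the model translated to `(r, t)`. -/
def nodeConst (W : Affine L) (r t : L) : L :=
  r ^ 3 + W.a₂ * r ^ 2 + W.a₄ * r + W.a₆ - t ^ 2 - W.a₃ * t - W.a₁ * r * t

variable (A W V) in
/-- An integral model with a node, together with the exact node `(r, t)` and the tangents. -/
structure Node where
  red : ReducesTo A W V
  r : L
  t : L
  a : L
  b : L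
  hr : r ∈ A
  ht : t ∈ A
  eq₃ : W.a₃ + W.a₁ * r + 2 * t = 0
  eq₄ : W.a₄ + 2 * W.a₂ * r + 3 * r ^ 2 - W.a₁ * t = 0
  sum_ab : a + b = -W.a₁
  mul_ab : a * b = -(W.a₂ + 3 * r)
  params : NodeParams A.valuation a b (nodeConst W r t)

namespace Node

variable (N : Node A W V)

/-- The constant term at the node; its valuation is that of the discriminant. -/
def c : L := nodeConst W N.r N.t

/-- The point lies in the singular locus of the reduction. -/
def AtNode : W.Point → Prop
  | .zero => False
  | .some x y _ => A.valuation (x - N.r) < 1 ∧ A.valuation (y - N.t) < 1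

@[simp] lemma atNode_some {x y : L} (h : W.Nonsingular x y) :
    N.AtNode (Point.some x y h) ↔ A.valuation (x - N.r) < 1 ∧ A.valuation (y - N.t) < 1 :=
  Iff.rfl

lemma equation_shift {x y : L} :
    W.Equation x y ↔ ((y - N.t) - N.a * (x - N.r)) * ((y - N.t) - N.b * (x - N.r))
      = (x - N.r) ^ 3 + N.c := by
  rw [equation_iff]
  have h1 := N.sum_ab
  have h2 := N.mul_ab
  have h3 := N.eq₃
  have h4 := N.eq₄
  unfold c nodeConst
  constructor <;> intro e
  · linear_combination e - (y - N.t) * (x - N.r) * h1 + (x - N.r) ^ 2 * h2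
      - (y - N.t) * h3 + (x - N.r) * h4
  · linear_combination e + (y - N.t) * (x - N.r) * h1 - (x - N.r) ^ 2 * h2
      + (y - N.t) * h3 - (x - N.r) * h4

lemma nearNode {x y : L} (h : W.Nonsingular x y) (hP : N.AtNode (Point.some x y h)) :
    NearNode A.valuation N.a N.b N.c (x - N.r) (y - N.t) :=
  ⟨N.equation_shift.mp h.left, hP.1, hP.2⟩

lemma negY_shift (x y : L) : W.negY x y - N.t = -(y - N.t) - W.a₁ * (x - N.r) := by
  rw [negY]
  linear_combination -N.eq₃

lemma v_a₁ (N : Node A W V) : A.valuation W.a₁ ≤ 1 := (A.valuation_le_one_iff _).mpr N.red.a₁_mem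

lemma atNode_neg {P : W.Point} : N.AtNode (-P) ↔ N.AtNode P := by
  have key : ∀ {x y : L} (h : W.Nonsingular x y), N.AtNode (Point.some x y h) →
      N.AtNode (-Point.some x y h) := by
    intro x y h hP
    rw [Point.neg_some, atNode_some, N.negY_shift]
    refine ⟨hP.1, A.valuation.map_sub_lt (by rw [A.valuation.map_neg]; exact hP.2) ?_⟩
    rw [map_mul]
    exact (mul_le_of_le_one_left zero_le N.v_a₁).trans_lt hP.1
  match P with
  | .zero => exact Iff.rfl
  | .some x y h =>
    refine ⟨fun hP => ?_, key h⟩
    have := key ((nonsingular_neg x y).mpr h) (by rwa [Point.neg_some] at hP)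
    rwa [Point.neg_some, atNode_some, negY_negY, ← atNode_some N h] at this

lemma atNode_iff_res (N : Node A W V) {x y : L} (hx : x ∈ A) (hy : y ∈ A) :
    A.valuation (x - N.r) < 1 ∧ A.valuation (y - N.t) < 1 ↔
      res A (x - N.r) = 0 ∧ res A (y - N.t) = 0 := by
  rw [res_eq_zero_iff (sub_mem hx N.hr), res_eq_zero_iff (sub_mem hy N.ht),
    ValuationSubring.mem_nonunits_iff, ValuationSubring.mem_nonunits_iff]

lemma natCast_mem' (n : ℕ) [n.AtLeastTwo] : (ofNat(n) : L) ∈ A := natCast_mem A n

/-- The defining relations of a node, in the residue field. -/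
structure ResData (N : Node A W V) : Prop where
  e₃ : V.a₃ + V.a₁ * res A N.r + 2 * res A N.t = 0
  e₄ : V.a₄ + 2 * V.a₂ * res A N.r + 3 * res A N.r ^ 2 - V.a₁ * res A N.t = 0
  es : res A N.a + res A N.b = -V.a₁
  em : res A N.a * res A N.b = -(V.a₂ + 3 * res A N.r)
  sep : res A N.a - res A N.b ≠ 0

lemma resData (N : Node A W V) : N.ResData := by
  have h2 : res A (2 : L) = 2 := by
    rw [← one_add_one_eq_two, res_add (one_mem A) (one_mem A), res_one, one_add_one_eq_two]
  have h3 : res A (3 : L) = 3 := by
    rw [← two_add_one_eq_three, res_add (natCast_mem' 2) (one_mem A), h2, res_one,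
      two_add_one_eq_three]
  have m1 := N.red.a₁_mem
  have m2 := N.red.a₂_mem
  have m3 := N.red.a₃_mem
  have m4 := N.red.a₄_mem
  have ma := (A.valuation_le_one_iff _).mp N.params.ha
  have mb := (A.valuation_le_one_iff _).mp N.params.hb
  have n2 : (2 : L) ∈ A := natCast_mem' 2
  have n3 : (3 : L) ∈ A := natCast_mem' 3
  refine ⟨?_, ?_, ?_, ?_, ?_⟩
  · have e3 := congr_arg (res A) N.eq₃
    rwa [res_add (add_mem m3 (mul_mem m1 N.hr)) (mul_mem n2 N.ht),
      res_add m3 (mul_mem m1 N.hr), res_mul m1 N.hr, res_mul n2 N.ht, h2,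
      N.red.res_a₁, N.red.res_a₃, res_zero] at e3
  · have e4 := congr_arg (res A) N.eq₄
    have q2 := mul_mem (mul_mem n2 m2) N.hr
    have q3 := mul_mem n3 (pow_mem N.hr 2)
    rwa [res_sub (add_mem (add_mem m4 q2) q3) (mul_mem m1 N.ht),
      res_add (add_mem m4 q2) q3, res_add m4 q2,
      res_mul (mul_mem n2 m2) N.hr, res_mul n2 m2, h2,
      res_mul n3 (pow_mem N.hr 2), h3, res_pow N.hr, res_mul m1 N.ht,
      N.red.res_a₁, N.red.res_a₂, N.red.res_a₄, res_zero] at e4
  · have es := congr_arg (res A) N.sum_ab
    rwa [res_add ma mb, res_neg m1, N.red.res_a₁] at es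
  · have em := congr_arg (res A) N.mul_ab
    have q4 := mul_mem n3 N.hr
    rwa [res_mul ma mb, res_neg (add_mem m2 q4), res_add m2 q4,
      res_mul n3 N.hr, h3, N.red.res_a₂] at em
  · rw [← res_sub ma mb, Ne, res_eq_zero_iff (sub_mem ma mb),
      ValuationSubring.mem_nonunits_iff, N.params.hab]
    exact lt_irrefl _

lemma not_inE0_iff (N : Node A W V) (P : W.Point) : ¬ InE0 A V P ↔ N.AtNode P := by
  match P with
  | .zero => exact iff_of_false (not_not_intro trivial) id
  | .some x y h =>
    rw [inE0_some, not_or, not_not, atNode_some]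
    obtain ⟨e₃, e₄, es, em, hsep⟩ := N.resData
    constructor
    · rintro ⟨hx, hns⟩
      have hy := N.red.y_mem h.left hx
      refine (N.atNode_iff_res hx hy).mpr ?_
      rw [nonsingular_iff, not_and] at hns
      have hns' := hns (N.red.equation_res hx hy h.left)
      rw [not_or, not_ne_iff, not_ne_iff] at hns'
      obtain ⟨dX, dY⟩ := hns'
      have ma := (A.valuation_le_one_iff _).mp N.params.ha
      have mb := (A.valuation_le_one_iff _).mp N.params.hb
      have hcA : N.c ∈ A := (A.valuation_le_one_iff _).mp N.params.hc.le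
      have ec : res A N.c = 0 := by
        rw [res_eq_zero_iff hcA, ValuationSubring.mem_nonunits_iff]
        exact N.params.hc
      have hX := sub_mem hx N.hr
      have hY := sub_mem hy N.ht
      have esh := congr_arg (res A) (N.equation_shift.mp h.left)
      rw [res_mul (sub_mem hY (mul_mem ma hX)) (sub_mem hY (mul_mem mb hX)),
        res_sub hY (mul_mem ma hX), res_sub hY (mul_mem mb hX), res_mul ma hX, res_mul mb hX,
        res_add (pow_mem hX 3) hcA, ec, res_pow hX, add_zero] at esh
      rw [res_sub hx N.hr] at esh ⊢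
      rw [res_sub hy N.ht] at esh ⊢
      set X := res A x - res A N.r with hXd
      set Y := res A y - res A N.t with hYd
      set a' := res A N.a
      set b' := res A N.b
      have hu : (Y - a' * X) + (Y - b' * X) = 0 := by
        rw [hXd, hYd]
        linear_combination dY - e₃ - (res A x - res A N.r) * es
      have hA : a' * (Y - b' * X) + b' * (Y - a' * X) + 3 * X ^ 2 = 0 := by
        rw [hXd, hYd]
        linear_combination -dX - e₄ + (res A y - res A N.t) * es
          - 2 * (res A x - res A N.r) * em
      have hX0 : X = 0 := by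
        by_contra hne
        have i1 : 6 * X + (a' - b') ^ 2 = 0 := by
          refine mul_left_cancel₀ hne ?_
          rw [mul_zero]
          linear_combination 2 * hA - (a' + b') * hu
        have i2 : 4 * X + (a' - b') ^ 2 = 0 := by
          refine mul_left_cancel₀ (pow_ne_zero 2 hne) ?_
          rw [mul_zero]
          linear_combination -4 * esh + (Y - a' * X + (Y - b' * X)) * hu
        exact pow_ne_zero 2 hsep (by linear_combination 3 * i2 - 2 * i1)
      refine ⟨hX0, ?_⟩
      rw [hX0] at esh
      refine mul_self_eq_zero.mp ?_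
      linear_combination esh
    · rintro ⟨hX, hY⟩
      have hx : x ∈ A := by
        simpa using add_mem ((A.valuation_le_one_iff _).mp hX.le) N.hr
      have hy : y ∈ A := by
        simpa using add_mem ((A.valuation_le_one_iff _).mp hY.le) N.ht
      refine ⟨hx, fun hns => ?_⟩
      obtain ⟨eX, eY⟩ := (N.atNode_iff_res hx hy).mp ⟨hX, hY⟩
      rw [res_sub hx N.hr, sub_eq_zero] at eX
      rw [res_sub hy N.ht, sub_eq_zero] at eY
      rw [nonsingular_iff, eX, eY] at hns
      rcases hns.2 with h' | h'
      · exact h' (by linear_combination -e₄)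
      · exact h' (by linear_combination e₃)

/-! ### The component homomorphism -/

lemma par (N : Node A W V) : NodeParams A.valuation N.a N.b N.c := N.params

/-- The unit `v c` of the value group. -/
noncomputable def cUnit (N : Node A W V) : A.ValueGroupˣ :=
  Units.mk0 (A.valuation N.c) (N.par.vc_ne_zero)

/-- The target of the component map: the value group modulo twice the valuation of `c`. -/
abbrev CompTarget (N : Node A W V) : Type _ :=
  Additive (A.ValueGroupˣ ⧸ Subgroup.zpowers (N.cUnit ^ 2))

open Classical in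
/-- The class of an element of the value group. -/
noncomputable def cls (N : Node A W V) (g : A.ValueGroup) : N.CompTarget :=
  if h : g = 0 then 0 else Additive.ofMul (QuotientGroup.mk (Units.mk0 g h))

lemma cls_mul (N : Node A W V) {g h : A.ValueGroup} (hg : g ≠ 0) (hh : h ≠ 0) :
    N.cls (g * h) = N.cls g + N.cls h := by
  rw [cls, cls, cls, dif_neg hg, dif_neg hh, dif_neg (mul_ne_zero hg hh), ← ofMul_mul,
    Units.mk0_mul, QuotientGroup.mk_mul]

lemma cls_eq_zero_iff (N : Node A W V) {g : A.ValueGroup} (hg : g ≠ 0) :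
    N.cls g = 0 ↔ InH A.valuation N.c g := by
  rw [cls, dif_neg hg, ofMul_eq_zero, QuotientGroup.eq_one_iff, Subgroup.mem_zpowers_iff]
  refine exists_congr fun k => ?_
  rw [Units.ext_iff, Units.val_zpow_eq_zpow_val, Units.val_pow_eq_pow_val, Units.val_mk0, eq_comm]
  rfl

open Classical in
/-- Twice the component of a point, as a class of the value group. -/
noncomputable def comp (N : Node A W V) : W.Point → N.CompTarget
  | .zero => 0
  | .some x y h =>
    if N.AtNode (Point.some x y h) then
      N.cls (compVal A.valuation N.a N.c (x - N.r) (y - N.t))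
    else 0

@[simp] lemma comp_zero (N : Node A W V) : N.comp 0 = 0 := rfl

lemma comp_of_atNode (N : Node A W V) {x y : L} {h : W.Nonsingular x y}
    (hP : N.AtNode (Point.some x y h)) :
    N.comp (Point.some x y h) = N.cls (compVal A.valuation N.a N.c (x - N.r) (y - N.t)) :=
  if_pos hP

lemma comp_of_not_atNode (N : Node A W V) {P : W.Point} (hP : ¬ N.AtNode P) : N.comp P = 0 := by
  match P with
  | .zero => rfl
  | .some x y h => exact if_neg hP

lemma comp_eq_zero_iff (N : Node A W V) (P : W.Point) : N.comp P = 0 ↔ InE0 A V P := by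
  by_cases hP : N.AtNode P
  · refine iff_of_false ?_ ((N.not_inE0_iff P).mpr hP)
    match P with
    | .some x y h =>
      rw [N.comp_of_atNode hP, N.cls_eq_zero_iff (NearNode.compVal_ne_zero N.par)]
      exact compVal_not_inH N.par (N.nearNode h hP)
  · exact iff_of_true (N.comp_of_not_atNode hP)
      (by_contra fun hc => hP ((N.not_inE0_iff P).mp hc))

lemma comp_neg (N : Node A W V) (P : W.Point) : N.comp (-P) = -N.comp P := by
  by_cases hP : N.AtNode P
  · match P with
    | .some x y h =>
      have n := N.nearNode h hP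
      have hneg : N.AtNode (-Point.some x y h) := N.atNode_neg.mpr hP
      have h0 := NearNode.compVal_ne_zero (X := x - N.r) (Y := y - N.t) N.par
      have h1 := NearNode.compVal_ne_zero (X := x - N.r) (Y := y - N.t) N.par.symm
      have hz := (N.cls_eq_zero_iff (mul_ne_zero h0 h1)).mpr (n.compVal_mul_swap N.par)
      rw [N.cls_mul h0 h1] at hz
      rw [Point.neg_some] at hneg ⊢
      rw [N.comp_of_atNode hneg, N.comp_of_atNode hP, ← eq_neg_of_add_eq_zero_right hz]
      congr 1
      have key : W.negY x y - N.t - N.a * (x - N.r) = -((y - N.t) - N.b * (x - N.r)) := by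
        rw [N.negY_shift]
        linear_combination -(x - N.r) * N.sum_ab
      rw [compVal, compVal, key, A.valuation.map_neg]
  · rw [N.comp_of_not_atNode hP, N.comp_of_not_atNode (fun h => hP (N.atNode_neg.mp h)), neg_zero]

variable [DecidableEq L]

/-- Adding two points near the node. -/
lemma comp_add_of_atNode (N : Node A W V) {P Q : W.Point} (hP : N.AtNode P) (hQ : N.AtNode Q) :
    N.comp (P + Q) = N.comp P + N.comp Q := by
  match P, Q with
  | .some x₁ y₁ h₁, .some x₂ y₂ h₂ =>
    by_cases hxy : x₁ = x₂ ∧ y₁ = W.negY x₂ y₂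
    · have e : Point.some x₁ y₁ h₁ = -Point.some x₂ y₂ h₂ := by
        rw [Point.neg_some]; exact some_eq_some _ _ hxy.1 hxy.2
      rw [e, neg_add_cancel, comp_zero, N.comp_neg, neg_add_cancel]
    obtain ⟨e1, e2, e3, ey₂, ey₃⟩ := ReducesTo.vieta h₁.left h₂.left hxy
      (l := W.slope x₁ x₂ y₁ y₂) rfl rfl rfl
    set l := W.slope x₁ x₂ y₁ y₂ with hl
    set X := W.addX x₁ x₂ l with hXdef
    set c₀ := y₁ - l * x₁ with hc₀
    set m := c₀ + l * N.r - N.t with hm
    have T : Triple N.a N.b N.c l m (x₁ - N.r) (x₂ - N.r) (X - N.r) := by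
      have f1 := N.sum_ab
      have f2 := N.mul_ab
      have f3 := N.eq₃
      have f4 := N.eq₄
      refine ⟨?_, ?_, ?_⟩
      · linear_combination e1 + l * f1 - f2
      · rw [hm]
        linear_combination e2 - 2 * N.r * e1 + f4 - l * f3
          - (c₀ + l * N.r - N.t) * f1
      · rw [hm]
        unfold Node.c nodeConst
        linear_combination e3 - N.r * e2 + N.r ^ 2 * e1 + (c₀ + l * N.r - N.t) * f3
    have ey₁' : y₁ - N.t = l * (x₁ - N.r) + m := by rw [hm, hc₀]; ring
    have ey₂' : y₂ - N.t = l * (x₂ - N.r) + m := by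
      rw [hm]; linear_combination ey₂
    have ey₃' : W.negAddY x₁ x₂ y₁ l - N.t = l * (X - N.r) + m := by
      rw [hm]; linear_combination ey₃
    have n₁ := N.nearNode h₁ hP
    have n₂ := N.nearNode h₂ hQ
    rw [ey₁'] at n₁
    rw [ey₂'] at n₂
    rw [Point.add_some hxy]
    have hne₁ := NearNode.compVal_ne_zero (X := x₁ - N.r) (Y := y₁ - N.t) N.par
    have hne₂ := NearNode.compVal_ne_zero (X := x₂ - N.r) (Y := y₂ - N.t) N.par
    have hS := nonsingular_add h₁ h₂ hxy
    have hR : W.Nonsingular X (W.negAddY x₁ x₂ y₁ l) := by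
      have := (nonsingular_neg _ _).mpr hS
      rwa [addY, negY_negY] at this
    have hSR : Point.some _ _ hS = -Point.some X (W.negAddY x₁ x₂ y₁ l) hR := by
      rw [Point.neg_some]
      exact some_eq_some _ _ rfl rfl
    rw [show Point.some (W.addX x₁ x₂ (W.slope x₁ x₂ y₁ y₂))
      (W.addY x₁ x₂ y₁ (W.slope x₁ x₂ y₁ y₂)) hS = -Point.some X (W.negAddY x₁ x₂ y₁ l) hR
      from hSR, N.comp_neg, N.comp_of_atNode hP, N.comp_of_atNode hQ, eq_comm,
      ← sub_eq_zero, sub_neg_eq_add, ← N.cls_mul hne₁ hne₂, ey₁', ey₂']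
    by_cases h₃ : N.AtNode (Point.some X (W.negAddY x₁ x₂ y₁ l) hR)
    · have n₃ := N.nearNode hR h₃
      rw [ey₃'] at n₃
      rw [N.comp_of_atNode h₃, ey₃', ← N.cls_mul
          (mul_ne_zero (NearNode.compVal_ne_zero N.par) (NearNode.compVal_ne_zero N.par))
          (NearNode.compVal_ne_zero N.par),
        N.cls_eq_zero_iff (mul_ne_zero (mul_ne_zero (NearNode.compVal_ne_zero N.par)
          (NearNode.compVal_ne_zero N.par)) (NearNode.compVal_ne_zero N.par))]
      exact prod_three N.par T n₁ n₂ n₃
    · rw [N.comp_of_not_atNode h₃, add_zero, N.cls_eq_zero_iff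
        (mul_ne_zero (NearNode.compVal_ne_zero N.par) (NearNode.compVal_ne_zero N.par))]
      refine prod_two N.par T n₁ n₂ (not_lt.mp fun hX => h₃ ⟨hX, ?_⟩)
      rw [ey₃']
      exact ordinate_lt N.par T n₁.hX n₂.hX hX n₁.hY

variable [DecidableEq (IsLocalRing.ResidueField A)]

lemma comp_add (N : Node A W V) (P Q : W.Point) : N.comp (P + Q) = N.comp P + N.comp Q := by
  have key : ∀ R S : W.Point, ¬ N.AtNode R → N.comp (R + S) = N.comp R + N.comp S := by
    intro R S hR
    rw [N.comp_of_not_atNode hR, zero_add]
    have hR' : R ∈ N.red.E0 := by_contra fun hc => hR ((N.not_inE0_iff R).mp hc)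
    by_cases hS : InE0 A V S
    · rw [(N.comp_eq_zero_iff _).mpr hS, N.comp_eq_zero_iff]
      exact add_mem hR' (show S ∈ N.red.E0 from hS)
    · have hRS : ¬ InE0 A V (R + S) := fun hc => hS (by
        simpa using sub_mem (show R + S ∈ N.red.E0 from hc) hR')
      have h := N.comp_add_of_atNode ((N.not_inE0_iff _).mp hRS)
        (N.atNode_neg.mpr ((N.not_inE0_iff S).mp hS))
      rw [add_neg_cancel_right, N.comp_of_not_atNode hR, N.comp_neg, ← sub_eq_add_neg,
        eq_comm, sub_eq_zero] at h
      exact h
  by_cases hP : N.AtNode P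
  · by_cases hQ : N.AtNode Q
    · exact N.comp_add_of_atNode hP hQ
    · rw [add_comm, key Q P hQ, add_comm]
  · exact key P Q hP

/-- The component homomorphism (doubled); its kernel is the subgroup of nonsingular reduction. -/
noncomputable def compHom (N : Node A W V) : W.Point →+ N.CompTarget where
  toFun := N.comp
  map_zero' := N.comp_zero
  map_add' := N.comp_add

@[simp] lemma compHom_apply (N : Node A W V) (P : W.Point) : N.compHom P = N.comp P := rfl

end Node

end Fermat.Agent.EC.Multiplicative
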