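import Fermat.Agent.EC.Multiplicative.Component
import Mathlib.AlgebraicGeometry.EllipticCurve.VariableChange

/-!
# Exact nodes of equations with multiplicative reduction

`exists_node`: an equation with multiplicative reduction has an exact node, whose constant term
has the valuation of the discriminant.
-/

set_option autoImplicit false

open WeierstrassCurve WeierstrassCurve.Affine

namespace Fermat.Agent.EC.Multiplicative

open Fermat.Agent.EC.Reduction

section Identities

variable {R : Type*} [CommRing R] {W : WeierstrassCurve R} {r t : R}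

lemma Δ_eq_of_node (h₃ : W.a₃ + W.a₁ * r + 2 * t = 0)
    (h₄ : W.a₄ + 2 * W.a₂ * r + 3 * r ^ 2 - W.a₁ * t = 0) :
    W.Δ = -(r ^ 3 + W.a₂ * r ^ 2 + W.a₄ * r + W.a₆ - t ^ 2 - W.a₃ * t - W.a₁ * r * t) *
      ((W.b₂ + 12 * r) ^ 3
        + 432 * (r ^ 3 + W.a₂ * r ^ 2 + W.a₄ * r + W.a₆ - t ^ 2 - W.a₃ * t - W.a₁ * r * t)) := by
  set C : VariableChange R := ⟨1, r, 0, t⟩ with hC
  have e1 : (C • W).a₁ = W.a₁ := by simp [hC, variableChange_a₁]
  have e2 : (C • W).a₂ = W.a₂ + 3 * r := by simp [hC, variableChange_a₂]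
  have e3 : (C • W).a₃ = 0 := by
    simp [hC, variableChange_a₃]
    linear_combination h₃
  have e4 : (C • W).a₄ = 0 := by
    simp [hC, variableChange_a₄]
    linear_combination h₄
  have e6 : (C • W).a₆ =
      r ^ 3 + W.a₂ * r ^ 2 + W.a₄ * r + W.a₆ - t ^ 2 - W.a₃ * t - W.a₁ * r * t := by
    simp [hC, variableChange_a₆]
    ring
  have eΔ : W.Δ = (C • W).Δ := by rw [variableChange_Δ]; simp [hC]
  rw [eΔ]
  simp only [WeierstrassCurve.Δ, WeierstrassCurve.b₂, WeierstrassCurve.b₄, WeierstrassCurve.b₆,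
    WeierstrassCurve.b₈, e1, e2, e3, e4, e6]
  ring

lemma c₄_eq_of_node (h₃ : W.a₃ + W.a₁ * r + 2 * t = 0)
    (h₄ : W.a₄ + 2 * W.a₂ * r + 3 * r ^ 2 - W.a₁ * t = 0) :
    W.c₄ = (W.b₂ + 12 * r) ^ 2 := by
  simp only [WeierstrassCurve.c₄, WeierstrassCurve.b₂, WeierstrassCurve.b₄]
  linear_combination (-48 : R) * h₄ - 24 * W.a₁ * h₃

lemma xNode_eq_of_node (h₃ : W.a₃ + W.a₁ * r + 2 * t = 0)
    (h₄ : W.a₄ + 2 * W.a₂ * r + 3 * r ^ 2 - W.a₁ * t = 0) :
    18 * W.b₆ - W.b₂ * W.b₄ = r * W.c₄
      + 72 * (r ^ 3 + W.a₂ * r ^ 2 + W.a₄ * r + W.a₆ - t ^ 2 - W.a₃ * t - W.a₁ * r * t) := by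
  simp only [WeierstrassCurve.c₄, WeierstrassCurve.b₂, WeierstrassCurve.b₄, WeierstrassCurve.b₆]
  linear_combination (-2 * (W.a₁ ^ 2 + 4 * W.a₂) - 24 * r) * h₄
    + (-(W.a₁ ^ 2 + 4 * W.a₂) * W.a₁ + 18 * W.a₃ + 6 * W.a₁ * r + 36 * t) * h₃

lemma b₄_mul_c₄_sq :
    6 * (18 * W.b₆ - W.b₂ * W.b₄) ^ 2 + W.b₂ * (18 * W.b₆ - W.b₂ * W.b₄) * W.c₄
      + W.b₄ * W.c₄ ^ 2 = -72 * W.Δ := by
  have := W.b_relation
  simp only [WeierstrassCurve.c₄, WeierstrassCurve.Δ]
  linear_combination (-18 * W.b₂ ^ 2) * this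

end Identities

variable {L : Type*} [Field L] [IsAlgClosed L] {A : ValuationSubring L}

omit [IsAlgClosed L] in
lemma coe_ofNat' (n : ℕ) [n.AtLeastTwo] : ((ofNat(n) : A) : L) = ofNat(n) :=
  map_ofNat A.subtype n

/-- A simple residual root of a quadratic lifts to a root. -/
lemma exists_quadratic_root {c₂ c₁ c₀ : A} {T : IsLocalRing.ResidueField A}
    (h : IsLocalRing.residue A c₂ * T ^ 2 + IsLocalRing.residue A c₁ * T
      + IsLocalRing.residue A c₀ = 0)
    (h' : 2 * IsLocalRing.residue A c₂ * T + IsLocalRing.residue A c₁ ≠ 0) :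
    ∃ x : A, c₂ * x ^ 2 + c₁ * x + c₀ = 0 ∧ IsLocalRing.residue A x = T := by
  obtain ⟨T₀, rfl⟩ := IsLocalRing.residue_surjective T
  set e₁ : A := 2 * c₂ * T₀ + c₁ with he₁
  set e₀ : A := c₂ * T₀ ^ 2 + c₁ * T₀ + c₀ with he₀
  have hv₁ : A.valuation (e₁ : L) = 1 :=
    (A.valuation_eq_one_iff _).mp (IsLocalRing.residue_ne_zero_iff_isUnit _ |>.mp
      (by simpa [he₁, map_ofNat] using h'))
  have hv₀ : A.valuation (e₀ : L) < 1 := by
    rw [← ValuationSubring.mem_nonunits_iff, ← res_eq_zero_iff e₀.2, res_coe]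
    simpa [he₀] using h
  suffices ∃ z : L, A.valuation z < 1 ∧ (c₂ : L) * z ^ 2 + e₁ * z + e₀ = 0 by
    obtain ⟨z, hz, ez⟩ := this
    refine ⟨T₀ + ⟨z, (A.valuation_le_one_iff z).mp hz.le⟩, Subtype.ext ?_, ?_⟩
    · rw [show (e₁ : L) = 2 * (c₂ : L) * T₀ + c₁ by simp [he₁, coe_ofNat'],
        show (e₀ : L) = (c₂ : L) * T₀ ^ 2 + c₁ * T₀ + c₀ by simp [he₀]] at ez
      push_cast
      linear_combination ez
    · rw [map_add, add_eq_left, IsLocalRing.residue_eq_zero_iff,
        ← ValuationSubring.coe_mem_nonunits_iff, ValuationSubring.mem_nonunits_iff]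
      exact hz
  have h10 : (e₁ : L) ≠ 0 := fun e => by simp [e] at hv₁
  by_cases h2 : (c₂ : L) = 0
  · refine ⟨-(e₀ : L) / e₁, ?_, ?_⟩
    · rwa [map_div₀, Valuation.map_neg, hv₁, div_one]
    · rw [h2]; field_simp; ring
  open Polynomial in
  obtain ⟨z, hz⟩ := IsAlgClosed.exists_root
    (C (c₂ : L) * X ^ 2 + C (e₁ : L) * X + C (e₀ : L)) (by rw [degree_quadratic h2]; norm_num)
  simp only [Polynomial.IsRoot, Polynomial.eval_add, Polynomial.eval_mul, Polynomial.eval_C,
    Polynomial.eval_pow, Polynomial.eval_X] at hz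
  set z' : L := -(e₁ : L) / c₂ - z with hz'
  have hs : (c₂ : L) * (z + z') = -(e₁ : L) := by rw [hz']; field_simp; ring
  have hz2 : (c₂ : L) * z' ^ 2 + e₁ * z' + e₀ = 0 := by
    linear_combination hz + (z' - z) * hs
  by_cases hzs : A.valuation z < 1
  · exact ⟨z, hzs, hz⟩
  by_cases hzs' : A.valuation z' < 1
  · exact ⟨z', hzs', hz2⟩
  exfalso
  rw [not_lt] at hzs hzs'
  have hp : (c₂ : L) * z * z' = e₀ := by linear_combination z * hs - hz
  have small : ∀ u u' : L, 1 ≤ A.valuation u' → (c₂ : L) * u * u' = e₀ →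
      A.valuation ((c₂ : L) * u) < 1 := by
    intro u u' hu' he
    refine lt_of_le_of_lt (le_mul_of_one_le_right zero_le hu') ?_
    rw [← map_mul, he]
    exact hv₀
  have := A.valuation.map_add_lt (small z z' hzs' hp)
    (small z' z hzs (by linear_combination hp))
  rw [← mul_add, hs, Valuation.map_neg, hv₁] at this
  exact lt_irrefl _ this

variable {W : Affine L} {V : Affine (IsLocalRing.ResidueField A)}

/-- An equation with multiplicative reduction has an exact node, and its constant term has the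
valuation of the discriminant. -/
lemma exists_node (h : ReducesTo A W V) (hc₄ : V.c₄ ≠ 0) (hΔ : V.Δ = 0) (hΔ0 : W.Δ ≠ 0) :
    ∃ N : Node A W V, A.valuation N.c = A.valuation W.Δ := by
  obtain ⟨W₀, rfl, rfl⟩ := h
  simp only [map_c₄, map_Δ] at hc₄ hΔ hΔ0
  obtain ⟨r, t, h₃, h₄, hN⟩ : ∃ r t : A, W₀.a₃ + W₀.a₁ * r + 2 * t = 0 ∧
      W₀.a₄ + 2 * W₀.a₂ * r + 3 * r ^ 2 - W₀.a₁ * t = 0 ∧
      (IsLocalRing.residue A (2 : A) ≠ 0 →
        IsLocalRing.residue A (18 * W₀.b₆ - W₀.b₂ * W₀.b₄ - r * W₀.c₄) = 0) := by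
    by_cases h2 : IsLocalRing.residue A (2 : A) = 0
    · have hb : IsLocalRing.residue A W₀.a₁ ≠ 0 := by
        intro ha
        apply hc₄
        simp only [WeierstrassCurve.c₄, WeierstrassCurve.b₂, WeierstrassCurve.b₄, map_sub, map_mul,
          map_add, map_pow, map_ofNat] at h2 ⊢
        rw [ha, show (4 : IsLocalRing.ResidueField A) = 2 * 2 by norm_num,
          show (24 : IsLocalRing.ResidueField A) = 2 * 12 by norm_num, h2]
        ring
      obtain ⟨i, hi⟩ : ∃ i : A, W₀.a₁ * i = 1 :=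
        (IsLocalRing.residue_ne_zero_iff_isUnit _ |>.mp hb).exists_right_inv
      obtain ⟨t, ht, -⟩ := exists_quadratic_root (c₂ := 12 * i ^ 2)
        (c₁ := -4 * W₀.a₂ * i + 12 * W₀.a₃ * i ^ 2 - W₀.a₁)
        (c₀ := W₀.a₄ - 2 * W₀.a₂ * W₀.a₃ * i + 3 * W₀.a₃ ^ 2 * i ^ 2)
        (T := IsLocalRing.residue A
          ((W₀.a₄ - 2 * W₀.a₂ * W₀.a₃ * i + 3 * W₀.a₃ ^ 2 * i ^ 2) * i))
        (by
          simp only [map_sub, map_add, map_mul, map_neg, map_pow, map_ofNat] at h2 ⊢
          have := congr_arg (IsLocalRing.residue A) hi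
          rw [map_mul, map_one] at this
          rw [show (4 : IsLocalRing.ResidueField A) = 2 * 2 by norm_num,
            show (12 : IsLocalRing.ResidueField A) = 2 * 6 by norm_num, h2]
          linear_combination -(IsLocalRing.residue A W₀.a₄
            + 3 * IsLocalRing.residue A W₀.a₃ ^ 2 * IsLocalRing.residue A i ^ 2) * this)
        (by
          simp only [map_sub, map_add, map_mul, map_neg, map_pow, map_ofNat] at h2 ⊢
          rw [show (4 : IsLocalRing.ResidueField A) = 2 * 2 by norm_num,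
            show (12 : IsLocalRing.ResidueField A) = 2 * 6 by norm_num, h2]
          simpa using hb)
      refine ⟨-(W₀.a₃ + 2 * t) * i, t, ?_, ?_, fun h => absurd h2 h⟩
      · linear_combination -(W₀.a₃ + 2 * t) * hi
      · linear_combination ht
    · have hc₄u : IsUnit W₀.c₄ := IsLocalRing.residue_ne_zero_iff_isUnit _ |>.mp hc₄
      obtain ⟨j, hj⟩ : ∃ j : A, 2 * j = 1 :=
        (IsLocalRing.residue_ne_zero_iff_isUnit _ |>.mp h2).exists_right_inv
      obtain ⟨i, hi⟩ := hc₄u.exists_right_inv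
      have hkey := congr_arg (IsLocalRing.residue A) (b₄_mul_c₄_sq (W := W₀))
      have hi' := congr_arg (IsLocalRing.residue A) hi
      simp only [map_sub, map_add, map_mul, map_neg, map_pow, map_ofNat, map_one, hΔ, mul_zero]
        at hkey hi'
      obtain ⟨r, hr, hrT⟩ := exists_quadratic_root (c₂ := (6 : A)) (c₁ := W₀.b₂) (c₀ := W₀.b₄)
        (T := IsLocalRing.residue A ((18 * W₀.b₆ - W₀.b₂ * W₀.b₄) * i))
        (by
          simp only [map_sub, map_mul, map_ofNat]
          linear_combination IsLocalRing.residue A i ^ 2 * hkey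
            - ((18 * IsLocalRing.residue A W₀.b₆
                - IsLocalRing.residue A W₀.b₂ * IsLocalRing.residue A W₀.b₄)
                * IsLocalRing.residue A i * IsLocalRing.residue A W₀.b₂
              + IsLocalRing.residue A W₀.b₄
                * (IsLocalRing.residue A W₀.c₄ * IsLocalRing.residue A i + 1)) * hi')
        (by
          intro hd
          apply hc₄
          simp only [map_sub, map_mul, map_ofNat] at hd
          set T := (18 * IsLocalRing.residue A W₀.b₆
            - IsLocalRing.residue A W₀.b₂ * IsLocalRing.residue A W₀.b₄)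
            * IsLocalRing.residue A i
          have hT : 6 * T ^ 2 + IsLocalRing.residue A W₀.b₂ * T
              + IsLocalRing.residue A W₀.b₄ = 0 := by
            linear_combination IsLocalRing.residue A i ^ 2 * hkey
              - (T * IsLocalRing.residue A W₀.b₂ + IsLocalRing.residue A W₀.b₄
                * (IsLocalRing.residue A W₀.c₄ * IsLocalRing.residue A i + 1)) * hi'
          simp only [WeierstrassCurve.c₄, map_sub, map_mul, map_pow, map_ofNat]
          linear_combination (2 * 6 * T + IsLocalRing.residue A W₀.b₂) * hd - 24 * hT)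
      refine ⟨r, -(W₀.a₃ + W₀.a₁ * r) * j, ?_, ?_, fun _ => ?_⟩
      · linear_combination -(W₀.a₃ + W₀.a₁ * r) * hj
      · simp only [WeierstrassCurve.b₂, WeierstrassCurve.b₄] at hr
        linear_combination j * hr - (W₀.a₄ + 2 * W₀.a₂ * r + 3 * r ^ 2) * hj
      · rw [map_sub, map_mul (IsLocalRing.residue A) r, hrT, map_mul, mul_assoc,
          mul_comm (IsLocalRing.residue A i), hi', mul_one, sub_self]
  have e₄ := c₄_eq_of_node h₃ h₄
  have eΔ := Δ_eq_of_node h₃ h₄
  have eN := xNode_eq_of_node h₃ h₄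
  set c : A := r ^ 3 + W₀.a₂ * r ^ 2 + W₀.a₄ * r + W₀.a₆ - t ^ 2 - W₀.a₃ * t - W₀.a₁ * r * t
    with hc
  set d : A := W₀.b₂ + 12 * r with hd
  have hdres : IsLocalRing.residue A d ≠ 0 := fun e => hc₄ (by
    rw [e₄, map_pow, e, zero_pow two_ne_zero])
  have hcres : IsLocalRing.residue A c = 0 := by
    have h1 : IsLocalRing.residue A c *
        (IsLocalRing.residue A d ^ 3 + 432 * IsLocalRing.residue A c) = 0 := by
      have := congr_arg (IsLocalRing.residue A) eΔ
      rw [hΔ] at this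
      simp only [map_neg, map_mul, map_add, map_pow, map_ofNat] at this
      linear_combination this
    have h2 : 432 * IsLocalRing.residue A c = 0 := by
      by_cases h2 : IsLocalRing.residue A (2 : A) = 0
      · rw [map_ofNat] at h2
        rw [show (432 : IsLocalRing.ResidueField A) = 2 * 216 by norm_num, h2, zero_mul, zero_mul]
      · have h72 := hN h2
        rw [eN, add_sub_cancel_left, map_mul, map_ofNat] at h72
        linear_combination 6 * h72
    rw [h2, add_zero] at h1
    exact (mul_eq_zero.mp h1).resolve_right (pow_ne_zero 3 hdres)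
  open Polynomial in
  obtain ⟨a, ha⟩ := IsAlgClosed.exists_root
    (C (1 : L) * X ^ 2 + C ((W₀.a₁ : L)) * X + C (-((W₀.a₂ + 3 * r : A) : L)))
    (by rw [degree_quadratic one_ne_zero]; norm_num)
  simp only [Polynomial.IsRoot, Polynomial.eval_add, Polynomial.eval_mul, Polynomial.eval_C,
    Polynomial.eval_pow, Polynomial.eval_X, one_mul] at ha
  have haA : a ∈ A := by
    by_contra hna
    refine not_mem_sq_add_mul hna W₀.a₁.2 (W₀.a₂ + 3 * r).2 ?_
    rw [sub_eq_add_neg, ha]
    exact zero_mem A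
  have hsq : (a - (-(W₀.a₁ : L) - a)) ^ 2 = (d : L) := by
    simp only [hd, WeierstrassCurve.b₂]
    push_cast [coe_ofNat'] at ha ⊢
    linear_combination 4 * ha
  have hvd : A.valuation (d : L) = 1 :=
    (A.valuation_eq_one_iff _).mp (IsLocalRing.residue_ne_zero_iff_isUnit _ |>.mp hdres)
  have hvc : A.valuation (c : L) < 1 := by
    rw [← ValuationSubring.mem_nonunits_iff, ← res_eq_zero_iff c.2, res_coe]; exact hcres
  have hΔL : ((W₀.map A.subtype).toAffine).Δ = -(c : L) * ((d : L) ^ 3 + 432 * (c : L)) := by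
    show (W₀.map A.subtype).Δ = _
    rw [map_Δ, eΔ, A.subtype_apply]
    push_cast [coe_ofNat']
    rfl
  have hc0 : (c : L) ≠ 0 := fun e => hΔ0 (by
    have := hΔL
    rw [e, neg_zero, zero_mul] at this
    rw [← map_Δ]; exact this)
  have hnc : nodeConst (W₀.map A.subtype).toAffine (r : L) (t : L) = (c : L) := by
    simp only [nodeConst, hc, map_a₁, map_a₂, map_a₃, map_a₄, map_a₆]
    push_cast [A.subtype_apply]
    rfl
  refine ⟨{ red := reducesTo_map A W₀
            r := r
            t := t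
            a := a
            b := -(W₀.a₁ : L) - a
            hr := r.2
            ht := t.2
            eq₃ := by simpa [coe_ofNat'] using congr_arg A.subtype h₃
            eq₄ := by simpa [coe_ofNat'] using congr_arg A.subtype h₄
            sum_ab := by show a + (-(W₀.a₁ : L) - a) = -(W₀.a₁ : L); ring
            mul_ab := by
              show a * (-(W₀.a₁ : L) - a) = -((W₀.a₂ : L) + 3 * (r : L))
              push_cast [coe_ofNat'] at ha
              linear_combination -ha
            params := ⟨(A.valuation_le_one_iff a).mpr haA,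
              (A.valuation_le_one_iff _).mpr (sub_mem (neg_mem W₀.a₁.2) haA), ?_, ?_, ?_⟩ },
    ?_⟩
  · have := congr_arg A.valuation hsq
    rw [map_pow, hvd] at this
    exact (pow_eq_one_iff_of_nonneg zero_le two_ne_zero).mp this
  · rw [hnc]; exact hc0
  · rw [hnc]; exact hvc
  · show A.valuation (nodeConst (W₀.map A.subtype).toAffine (r : L) (t : L)) = _
    have hsmall : A.valuation (432 * (c : L)) < 1 := by
      rw [map_mul]
      exact (mul_le_of_le_one_left zero_le
        ((A.valuation_le_one_iff _).mpr (natCast_mem A 432))).trans_lt hvc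
    rw [hnc, hΔL, map_mul, Valuation.map_neg,
      A.valuation.map_add_eq_of_lt_left (by rwa [map_pow, hvd, one_pow]), map_pow, hvd, one_pow,
      mul_one]

end Fermat.Agent.EC.Multiplicative
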