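import Fermat.Agent.EC.Multiplicative.Component

/-!
# Nonsingular points of a nodal cubic

The parameter `parHom` maps the nonsingular points of a nodal cubic injectively to the
multiplicative group, and gives the homomorphism `mu` on points with nonsingular reduction.
-/

set_option autoImplicit false

open WeierstrassCurve WeierstrassCurve.Affine

namespace Fermat.Agent.EC.Multiplicative

open Fermat.Agent.EC.Reduction

variable {k : Type*} [Field k]

/-- A cubic with a node at `(r, t)` and tangent slopes `a`, `b` there. -/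
structure NodalCurve (V : Affine k) where
  r : k
  t : k
  a : k
  b : k
  eq₃ : V.a₃ + V.a₁ * r + 2 * t = 0
  eq₄ : V.a₄ + 2 * V.a₂ * r + 3 * r ^ 2 - V.a₁ * t = 0
  eq₆ : nodeConst V r t = 0
  sum_ab : a + b = -V.a₁
  mul_ab : a * b = -(V.a₂ + 3 * r)
  sep : a - b ≠ 0

namespace NodalCurve

variable {V : Affine k} (C : NodalCurve V)

/-- Numerator of the parameter. -/
def num (x y : k) : k := (y - C.t) - C.a * (x - C.r)

/-- Denominator of the parameter. -/
def den (x y : k) : k := (y - C.t) - C.b * (x - C.r)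

lemma equation_iff' (x y : k) : V.Equation x y ↔ C.num x y * C.den x y = (x - C.r) ^ 3 := by
  rw [equation_iff]
  have h1 := C.sum_ab
  have h2 := C.mul_ab
  have h3 := C.eq₃
  have h4 := C.eq₄
  have h6 := C.eq₆
  unfold nodeConst at h6
  unfold num den
  constructor <;> intro e
  · linear_combination e - (y - C.t) * (x - C.r) * h1 + (x - C.r) ^ 2 * h2
      - (y - C.t) * h3 + (x - C.r) * h4 + h6
  · linear_combination e + (y - C.t) * (x - C.r) * h1 - (x - C.r) ^ 2 * h2
      + (y - C.t) * h3 - (x - C.r) * h4 - h6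

/-- The node is the only singular point. -/
lemma eq_node_of_singular {x y : k} (h : V.Equation x y) (hs : ¬ V.Nonsingular x y) :
    x = C.r ∧ y = C.t := by
  rw [nonsingular_iff, not_and] at hs
  have hs' := hs h
  rw [not_or, not_ne_iff, not_ne_iff] at hs'
  obtain ⟨dX, dY⟩ := hs'
  have e := (C.equation_iff' x y).mp h
  unfold num den at e
  have h1 := C.sum_ab
  have hu : ((y - C.t) - C.a * (x - C.r)) + ((y - C.t) - C.b * (x - C.r)) = 0 := by
    linear_combination dY - C.eq₃ - (x - C.r) * h1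
  have hA : C.a * ((y - C.t) - C.b * (x - C.r)) + C.b * ((y - C.t) - C.a * (x - C.r))
      + 3 * (x - C.r) ^ 2 = 0 := by
    linear_combination -dX - C.eq₄ + (y - C.t) * h1 - 2 * (x - C.r) * C.mul_ab
  have hX : x - C.r = 0 := by
    by_contra hne
    have i1 : 6 * (x - C.r) + (C.a - C.b) ^ 2 = 0 := by
      refine mul_left_cancel₀ hne ?_
      rw [mul_zero]
      linear_combination 2 * hA - (C.a + C.b) * hu
    have i2 : 4 * (x - C.r) + (C.a - C.b) ^ 2 = 0 := by
      refine mul_left_cancel₀ (pow_ne_zero 2 hne) ?_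
      rw [mul_zero]
      linear_combination -4 * e
        + ((y - C.t) - C.a * (x - C.r) + ((y - C.t) - C.b * (x - C.r))) * hu
    exact pow_ne_zero 2 C.sep (by linear_combination 3 * i2 - 2 * i1)
  rw [hX] at e
  exact ⟨sub_eq_zero.mp hX, sub_eq_zero.mp (mul_self_eq_zero.mp (by linear_combination e))⟩

lemma not_nonsingular_node : ¬ V.Nonsingular C.r C.t := by
  rw [nonsingular_iff]
  rintro ⟨-, h | h⟩
  · exact h (by linear_combination -C.eq₄)
  · exact h (by linear_combination C.eq₃)

lemma equation_node : V.Equation C.r C.t := by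
  rw [C.equation_iff', num, den]
  simp

lemma x_ne_r {x y : k} (h : V.Nonsingular x y) : x - C.r ≠ 0 := by
  intro hX
  have e := (C.equation_iff' x y).mp h.left
  rw [num, den, hX] at e
  have hY : y - C.t = 0 := by
    refine mul_self_eq_zero.mp ?_
    linear_combination e
  rw [sub_eq_zero] at hX hY
  subst hX hY
  rw [nonsingular_iff] at h
  rcases h.2 with h' | h'
  · exact h' (by linear_combination -C.eq₄)
  · exact h' (by linear_combination C.eq₃)

lemma num_ne_zero {x y : k} (h : V.Nonsingular x y) : C.num x y ≠ 0 := fun e0 => by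
  have e := (C.equation_iff' x y).mp h.left
  rw [e0, zero_mul] at e
  exact pow_ne_zero 3 (C.x_ne_r h) e.symm

lemma den_ne_zero {x y : k} (h : V.Nonsingular x y) : C.den x y ≠ 0 := fun e0 => by
  have e := (C.equation_iff' x y).mp h.left
  rw [e0, mul_zero] at e
  exact pow_ne_zero 3 (C.x_ne_r h) e.symm

/-- The parameter of a nonsingular point. -/
def par : V.Point → k
  | .zero => 1
  | .some x y _ => C.num x y / C.den x y

@[simp] lemma par_zero : C.par 0 = 1 := rfl

lemma par_some {x y : k} (h : V.Nonsingular x y) :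
    C.par (Point.some x y h) = C.num x y / C.den x y := rfl

lemma par_ne_zero (P : V.Point) : C.par P ≠ 0 := by
  match P with
  | .zero => exact one_ne_zero
  | .some x y h => exact div_ne_zero (C.num_ne_zero h) (C.den_ne_zero h)

lemma par_eq_one_iff (P : V.Point) : C.par P = 1 ↔ P = 0 := by
  match P with
  | .zero => exact iff_of_true rfl rfl
  | .some x y h =>
    refine iff_of_false (fun e => ?_) (Point.some_ne_zero _)
    rw [par_some, div_eq_one_iff_eq (C.den_ne_zero h)] at e
    have : (C.a - C.b) * (x - C.r) = 0 := by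
      unfold num den at e; linear_combination -e
    exact C.x_ne_r h ((mul_eq_zero.mp this).resolve_left C.sep)

lemma num_negY (x y : k) : C.num x (V.negY x y) = -C.den x y := by
  unfold num den
  rw [negY]
  linear_combination -C.eq₃ - (x - C.r) * C.sum_ab

lemma den_negY (x y : k) : C.den x (V.negY x y) = -C.num x y := by
  unfold num den
  rw [negY]
  linear_combination -C.eq₃ - (x - C.r) * C.sum_ab

lemma par_neg (P : V.Point) : C.par (-P) = (C.par P)⁻¹ := by
  match P with
  | .zero => show (1 : k) = 1⁻¹; exact inv_one.symm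
  | .some x y h =>
    rw [Point.neg_some, par_some, par_some, C.num_negY, C.den_negY, neg_div_neg_eq, inv_div]

variable [DecidableEq k]

lemma par_add (P Q : V.Point) : C.par (P + Q) = C.par P * C.par Q := by
  match P, Q with
  | .zero, Q => rw [← Point.zero_def, zero_add, par_zero, one_mul]
  | .some x y h, .zero => rw [← Point.zero_def, add_zero, par_zero, mul_one]
  | .some x₁ y₁ h₁, .some x₂ y₂ h₂ =>
    by_cases hxy : x₁ = x₂ ∧ y₁ = V.negY x₂ y₂
    · rw [Point.add_of_Y_eq hxy.1 hxy.2, par_zero,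
        show Point.some x₁ y₁ h₁ = -Point.some x₂ y₂ h₂ by
          rw [Point.neg_some]; exact some_eq_some _ _ hxy.1 hxy.2,
        C.par_neg, inv_mul_cancel₀ (C.par_ne_zero _)]
    obtain ⟨e1, e2, e3, ey₂, ey₃⟩ := ReducesTo.vieta h₁.left h₂.left hxy
      (l := V.slope x₁ x₂ y₁ y₂) rfl rfl rfl
    set l := V.slope x₁ x₂ y₁ y₂ with hl
    set X := V.addX x₁ x₂ l with hXdef
    set c₀ := y₁ - l * x₁ with hc₀
    set m := c₀ + l * C.r - C.t with hm
    set g := l - C.a with hg
    set d := l - C.b with hd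
    have f1 := C.sum_ab
    have f2 := C.mul_ab
    have f3 := C.eq₃
    have f4 := C.eq₄
    have f6 := C.eq₆
    unfold nodeConst at f6
    have E1 : (x₁ - C.r) + (x₂ - C.r) + (X - C.r) = g * d := by
      rw [hg, hd]; linear_combination e1 + l * f1 - f2
    have E2 : (x₁ - C.r) * (x₂ - C.r) + (x₁ - C.r) * (X - C.r) + (x₂ - C.r) * (X - C.r)
        = -(m * (g + d)) := by
      rw [hg, hd, hm]
      linear_combination e2 - 2 * C.r * e1 + f4 - l * f3 - (c₀ + l * C.r - C.t) * f1
    have E3 : (x₁ - C.r) * (x₂ - C.r) * (X - C.r) = m ^ 2 := by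
      rw [hm]
      linear_combination e3 - C.r * e2 + C.r ^ 2 * e1 + (c₀ + l * C.r - C.t) * f3 - f6
    have hS := nonsingular_add h₁ h₂ hxy
    have hR : V.Nonsingular X (V.negAddY x₁ x₂ y₁ l) := by
      have := (nonsingular_neg _ _).mpr hS
      rwa [addY, negY_negY] at this
    have hn : ∀ x y : k, y = l * x + c₀ →
        C.num x y = g * (x - C.r) + m ∧ C.den x y = d * (x - C.r) + m := by
      intro x y e
      unfold num den
      rw [hg, hd, hm, e]
      exact ⟨by ring, by ring⟩
    have hy₁ : y₁ = l * x₁ + c₀ := by rw [hc₀]; ring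
    obtain ⟨n₁, d₁⟩ := hn x₁ y₁ hy₁
    obtain ⟨n₂, d₂⟩ := hn x₂ y₂ ey₂
    obtain ⟨n₃, d₃⟩ := hn X _ ey₃
    have hm0 : m ≠ 0 := fun e => by
      rw [e, zero_pow two_ne_zero] at E3
      exact mul_ne_zero (mul_ne_zero (C.x_ne_r h₁) (C.x_ne_r h₂)) (C.x_ne_r hR) E3
    have pn : C.num x₁ y₁ * C.num x₂ y₂ * C.num X (V.negAddY x₁ x₂ y₁ l) = m ^ 3 := by
      rw [n₁, n₂, n₃]
      linear_combination g ^ 3 * E3 + g ^ 2 * m * E2 + g * m ^ 2 * E1
    have pd : C.den x₁ y₁ * C.den x₂ y₂ * C.den X (V.negAddY x₁ x₂ y₁ l) = m ^ 3 := by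
      rw [d₁, d₂, d₃]
      linear_combination d ^ 3 * E3 + d ^ 2 * m * E2 + d * m ^ 2 * E1
    rw [Point.add_some hxy, show Point.some (V.addX x₁ x₂ (V.slope x₁ x₂ y₁ y₂))
      (V.addY x₁ x₂ y₁ (V.slope x₁ x₂ y₁ y₂)) hS = -Point.some X (V.negAddY x₁ x₂ y₁ l) hR by
        rw [Point.neg_some]; exact some_eq_some _ _ rfl rfl,
      C.par_neg, par_some, par_some, par_some, inv_div, div_mul_div_comm,
      div_eq_div_iff (C.num_ne_zero hR) (mul_ne_zero (C.den_ne_zero h₁) (C.den_ne_zero h₂))]
    linear_combination pd - pn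

/-- The isomorphism with the multiplicative group, as a homomorphism. -/
def parHom : V.Point →+ Additive kˣ where
  toFun P := Additive.ofMul (Units.mk0 (C.par P) (C.par_ne_zero P))
  map_zero' := by
    rw [← ofMul_one]; exact congr_arg Additive.ofMul (Units.ext C.par_zero)
  map_add' P Q := by
    rw [← ofMul_mul]; exact congr_arg Additive.ofMul (Units.ext (C.par_add P Q))

lemma parHom_eq_zero_iff (P : V.Point) : C.parHom P = 0 ↔ P = 0 := by
  show Additive.ofMul (Units.mk0 (C.par P) _) = 0 ↔ _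
  rw [ofMul_eq_zero, Units.ext_iff]
  exact C.par_eq_one_iff P

end NodalCurve

namespace Node

variable {L : Type*} [Field L] {A : ValuationSubring L}
  {W : Affine L} {V : Affine (IsLocalRing.ResidueField A)}

lemma res_c (N : Node A W V) : res A N.c = 0 := by
  rw [res_eq_zero_iff ((A.valuation_le_one_iff _).mp N.par.hc.le),
    ValuationSubring.mem_nonunits_iff]
  exact N.par.hc

/-- The node of the reduction. -/
noncomputable def nodal (N : Node A W V) : NodalCurve V where
  r := res A N.r
  t := res A N.t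
  a := res A N.a
  b := res A N.b
  eq₃ := N.resData.e₃
  eq₄ := N.resData.e₄
  eq₆ := by
    obtain ⟨W₀, eW, eV⟩ := N.red
    have hr := N.hr
    have ht := N.ht
    have := N.res_c
    unfold Node.c nodeConst at this
    unfold nodeConst
    rw [← N.red.res_a₁, ← N.red.res_a₂, ← N.red.res_a₃, ← N.red.res_a₄, ← N.red.res_a₆,
      ← res_pow hr, ← res_pow hr, ← res_pow ht, ← res_mul N.red.a₂_mem (pow_mem hr 2),
      ← res_mul N.red.a₄_mem hr, ← res_mul N.red.a₃_mem ht, ← res_mul N.red.a₁_mem hr,
      ← res_mul (mul_mem N.red.a₁_mem hr) ht,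
      ← res_add (pow_mem hr 3) (mul_mem N.red.a₂_mem (pow_mem hr 2)),
      ← res_add (add_mem (pow_mem hr 3) (mul_mem N.red.a₂_mem (pow_mem hr 2)))
        (mul_mem N.red.a₄_mem hr),
      ← res_add (add_mem (add_mem (pow_mem hr 3) (mul_mem N.red.a₂_mem (pow_mem hr 2)))
        (mul_mem N.red.a₄_mem hr)) N.red.a₆_mem,
      ← res_sub (add_mem (add_mem (add_mem (pow_mem hr 3) (mul_mem N.red.a₂_mem (pow_mem hr 2)))
        (mul_mem N.red.a₄_mem hr)) N.red.a₆_mem) (pow_mem ht 2),
      ← res_sub (sub_mem (add_mem (add_mem (add_mem (pow_mem hr 3)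
        (mul_mem N.red.a₂_mem (pow_mem hr 2))) (mul_mem N.red.a₄_mem hr)) N.red.a₆_mem)
        (pow_mem ht 2)) (mul_mem N.red.a₃_mem ht),
      ← res_sub (sub_mem (sub_mem (add_mem (add_mem (add_mem (pow_mem hr 3)
        (mul_mem N.red.a₂_mem (pow_mem hr 2))) (mul_mem N.red.a₄_mem hr)) N.red.a₆_mem)
        (pow_mem ht 2)) (mul_mem N.red.a₃_mem ht)) (mul_mem (mul_mem N.red.a₁_mem hr) ht)]
    exact this
  sum_ab := N.resData.es
  mul_ab := N.resData.em
  sep := N.resData.sep

variable [DecidableEq L] [DecidableEq (IsLocalRing.ResidueField A)]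

/-- The multiplicative parameter on points with nonsingular reduction. -/
noncomputable def mu (N : Node A W V) :
    N.red.E0 →+ Additive (IsLocalRing.ResidueField A)ˣ :=
  N.nodal.parHom.comp N.red.red

lemma mu_eq_zero_iff (N : Node A W V) (P : N.red.E0) : N.mu P = 0 ↔ (P : W.Point) ∈ N.red.E1 := by
  show N.nodal.parHom (N.red.red P) = 0 ↔ _
  rw [N.nodal.parHom_eq_zero_iff, N.red.red_eq_zero_iff]

end Node

end Fermat.Agent.EC.Multiplicative
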