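import Fermat.Agent.EC.Multiplicative.Int
import Fermat.Agent.EC.Reduction.Frey

/-!
# The Frey curve at primes of multiplicative reduction

`galoisRepUnramifiedAt_of_dvd`: at an odd prime `q ≠ p` dividing `abc` the mod `p` representation
of the Frey curve is unramified, as `p` divides the valuation of the discriminant.
-/

set_option autoImplicit false

open WeierstrassCurve WeierstrassCurve.Affine
open scoped WeierstrassCurve.Affine

namespace Fermat.Agent.EC.Multiplicative.Frey

open Fermat.Agent.EC.Reduction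

variable (P : FreyPackage)

/-- `v_q(Δ) + 8 v_q(2) = 2 p v_q(abc)`. -/
lemma padicValInt_Δ_add {q : ℕ} (hq : q.Prime) :
    padicValInt q P.freyCurveInt.Δ + 8 * padicValInt q 2 =
      2 * P.p * padicValInt q (P.a * P.b * P.c) := by
  have := Fact.mk hq
  have h := congr_arg Int.natAbs (Frey.Δ_eq P)
  rw [Int.natAbs_mul, Int.natAbs_pow, Int.natAbs_pow] at h
  have h' := congr_arg (padicValNat q) h
  have hΔ : P.freyCurveInt.Δ.natAbs ≠ 0 := Int.natAbs_ne_zero.mpr (Frey.Δ_ne_zero P)
  rw [padicValNat.mul (pow_ne_zero _ (by decide)) hΔ, padicValNat.pow, padicValNat.pow] at h'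
  show padicValNat q _ + 8 * padicValNat q _ = 2 * P.p * padicValNat q _
  rw [← h', add_comm]

lemma padicValInt_Δ_of_odd {q : ℕ} (hq : q.Prime) (hq2 : q ≠ 2) :
    padicValInt q P.freyCurveInt.Δ = 2 * P.p * padicValInt q (P.a * P.b * P.c) := by
  have h := padicValInt_Δ_add P hq
  rwa [show padicValInt q 2 = 0 from padicValInt.eq_zero_of_not_dvd fun hd =>
    hq2 ((Nat.prime_dvd_prime_iff_eq hq Nat.prime_two).mp (Int.natCast_dvd_natCast.mp hd)),
    mul_zero, add_zero] at h

/-- Multiplicative primes: the representation of the Frey curve is unramified at odd `q ≠ p`. -/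
theorem galoisRepUnramifiedAt_of_dvd {q : ℕ} (hq : q.Prime) (hq2 : q ≠ 2) (hqp : q ≠ P.p)
    (h : (q : ℤ) ∣ P.a * P.b * P.c) : P.GaloisRepUnramifiedAt q := by
  unfold FreyPackage.GaloisRepUnramifiedAt
  rw [Frey.freyCurve_eq_map]
  exact galoisRepUnramifiedAt_of_multiplicative hq (Frey.Δ_ne_zero P) (Frey.dvd_Δ P hq hq2 h)
    (Frey.not_dvd_c₄ P hq h) P.hp_odd
    (fun hd => hqp ((Nat.prime_dvd_prime_iff_eq hq P.pp).mp hd))
    ⟨2 * padicValInt q (P.a * P.b * P.c), by rw [padicValInt_Δ_of_odd P hq hq2]; ring⟩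

end Fermat.Agent.EC.Multiplicative.Frey
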