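import Fermat.Agent.EC.Multiplicative.Int
import Fermat.Agent.EC.Multiplicative.Fiber

/-!
# Frobenius at a multiplicative place

The decomposition group acts on components through a sign. The main result is
`exists_sign_frobenius_quadratic`: Frobenius satisfies `(X - ε) (X - ε q)` on torsion of order
prime to `q`.
-/

set_option autoImplicit false

open WeierstrassCurve WeierstrassCurve.Affine
open scoped WeierstrassCurve.Affine Pointwise

namespace Fermat.Agent.EC.Multiplicative

open Fermat.Agent.EC.Reduction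

namespace Node

universe r s v

variable {R : Type r} {S : Type s} {L : Type v} [CommRing R] [Field S] [Field L]
  [Algebra R S] [Algebra R L] [Algebra S L] [IsScalarTower R S L]
  {W' : Affine R} {A : ValuationSubring L} {V : Affine (IsLocalRing.ResidueField A)}
  {σ : L ≃ₐ[S] L} {φ : IsLocalRing.ResidueField A →+* IsLocalRing.ResidueField A}

variable (N : Node A (W'⁄L) V)

/-- The node is defined over the prime field. -/
lemma res_map_r (hφ : ∀ x ∈ A, res A (σ x) = φ (res A x)) :
    res A (σ N.r) = res A N.r := by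
  rw [hφ _ N.hr]
  have hns : ¬ V.Nonsingular (φ (res A N.r)) (φ (res A N.t)) := by
    rw [N.red.nonsingular_map_iff hφ]
    exact N.nodal.not_nonsingular_node
  refine (N.nodal.eq_node_of_singular ?_ hns).1
  have := Affine.Equation.map φ N.nodal.equation_node
  rwa [N.red.map_eq_self hφ] at this

lemma map_rt (hσ : σ • A = A) (hφ : ∀ x ∈ A, res A (σ x) = φ (res A x)) :
    σ N.r = N.r ∧ σ N.t = N.t :=
  N.map_rt_eq hσ (N.res_map_r hφ)

variable [DecidableEq L] [DecidableEq (IsLocalRing.ResidueField A)] [Algebra.IsAlgebraic S L]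

/-- The sign of an element of the decomposition group: `1` if it fixes the tangents. -/
noncomputable def sign (σ : L ≃ₐ[S] L) : ℤ := if σ N.a = N.a then 1 else -1

omit [Algebra R S] [IsScalarTower R S L] [DecidableEq (IsLocalRing.ResidueField A)] [Algebra.IsAlgebraic S L] in
lemma sign_eq_one_or (σ : L ≃ₐ[S] L) : N.sign σ = 1 ∨ N.sign σ = -1 := by
  unfold sign; split_ifs
  · exact Or.inl rfl
  · exact Or.inr rfl

omit [DecidableEq (IsLocalRing.ResidueField A)] in
/-- The decomposition group acts on components by the sign. -/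
lemma comp_smul_sign (hσ : σ • A = A) (hφ : ∀ x ∈ A, res A (σ x) = φ (res A x))
    (P : (W'⁄L).Point) : N.comp (σ • P) = N.sign σ • N.comp P := by
  obtain ⟨hr, ht⟩ := N.map_rt hσ hφ
  match P with
  | .zero => show (0 : N.CompTarget) = _; rw [show N.comp Point.zero = 0 from rfl, zsmul_zero]
  | .some x y h =>
    obtain ⟨h', e⟩ := smul_some (σ := σ) h
    rw [e]
    have ex : σ x - N.r = σ (x - N.r) := by rw [map_sub, hr]
    have ey : σ y - N.t = σ (y - N.t) := by rw [map_sub, ht]
    have hiff : N.AtNode (Point.some (σ x) (σ y) h') ↔ N.AtNode (Point.some x y h) := by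
      rw [atNode_some, atNode_some, ex, ey, valuation_map_eq hσ, valuation_map_eq hσ]
    by_cases hP : N.AtNode (Point.some x y h)
    · rw [N.comp_of_atNode hP, N.comp_of_atNode (hiff.mpr hP), ex, ey]
      have n := N.nearNode h hP
      have h0 := NearNode.compVal_ne_zero (X := x - N.r) (Y := y - N.t) N.par
      have h1 := NearNode.compVal_ne_zero (X := x - N.r) (Y := y - N.t) N.par.symm
      have hz := (N.cls_eq_zero_iff (mul_ne_zero h0 h1)).mpr (n.compVal_mul_swap N.par)
      rw [N.cls_mul h0 h1] at hz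
      have hcv : ∀ d d' : L, σ d = d' →
          compVal A.valuation d' N.c (σ (x - N.r)) (σ (y - N.t)) =
            compVal A.valuation d N.c (x - N.r) (y - N.t) := by
        intro d d' hd
        have e' : σ (y - N.t) - d' * σ (x - N.r) = σ (y - N.t - d * (x - N.r)) := by
          rw [map_sub σ (y - N.t), map_mul, hd]
        rw [compVal, compVal, e', valuation_map_eq hσ, valuation_map_eq hσ]
      rcases N.map_ab hσ hr with ⟨ha, hb⟩ | ⟨ha, hb⟩
      · rw [sign, if_pos ha, one_zsmul, hcv _ _ ha]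
      · rw [sign, if_neg fun hh => N.resData.sep (by rw [← hh, ha, sub_self]), neg_one_zsmul,
          hcv _ _ hb, ← eq_neg_of_add_eq_zero_right hz]
    · rw [N.comp_of_not_atNode hP, N.comp_of_not_atNode (mt hiff.mp hP), zsmul_zero]

/-- `σ P - ε P` has nonsingular reduction. -/
lemma inE0_smul_sub_sign (hσ : σ • A = A) (hφ : ∀ x ∈ A, res A (σ x) = φ (res A x))
    (P : (W'⁄L).Point) : InE0 A V (σ • P - N.sign σ • P) := by
  rw [← N.comp_eq_zero_iff, ← N.compHom_apply, map_sub, map_zsmul, N.compHom_apply,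
    N.compHom_apply, N.comp_smul_sign hσ hφ, sub_self]

omit [DecidableEq (IsLocalRing.ResidueField A)] [Algebra.IsAlgebraic S L] in
/-- The decomposition group on the multiplicative parameter. -/
lemma par_smul (hσ : σ • A = A) (hφ : ∀ x ∈ A, res A (σ x) = φ (res A x)) (P : (W'⁄L).Point) :
    N.nodal.par (redFun A V (σ • P)) = φ (N.nodal.par (redFun A V P)) ^ N.sign σ := by
  obtain ⟨hr, ht⟩ := N.map_rt hσ hφ
  match he : redFun A V P with
  | .zero =>
    rw [N.red.redFun_smul_zero hσ hφ he]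
    show (1 : IsLocalRing.ResidueField A) = φ 1 ^ _
    rw [map_one, one_zpow]
  | .some c d hcd =>
    match P with
    | .zero => exact absurd he.symm (Point.some_ne_zero _)
    | .some x y hn =>
      rw [N.red.redFun_smul_some hσ hφ he]
      have er : φ (res A N.r) = res A N.r := by rw [← hφ _ N.hr, hr]
      have et : φ (res A N.t) = res A N.t := by rw [← hφ _ N.ht, ht]
      have ma := (A.valuation_le_one_iff _).mp N.par.ha
      have mb := (A.valuation_le_one_iff _).mp N.par.hb
      rcases N.map_ab hσ hr with ⟨ha, hb⟩ | ⟨ha, hb⟩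
      · have ea : φ (res A N.a) = res A N.a := by rw [← hφ _ ma, ha]
        have eb : φ (res A N.b) = res A N.b := by rw [← hφ _ mb, hb]
        rw [sign, if_pos ha, zpow_one]
        simp only [NodalCurve.par_some, NodalCurve.num, NodalCurve.den, nodal, map_div₀, map_sub,
          map_mul, er, et, ea, eb]
      · have ea : φ (res A N.a) = res A N.b := by rw [← hφ _ ma, ha]
        have eb : φ (res A N.b) = res A N.a := by rw [← hφ _ mb, hb]
        rw [sign, if_neg fun hh => N.resData.sep (by rw [← hh, ha, sub_self]), zpow_neg_one]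
        simp only [NodalCurve.par_some, NodalCurve.num, NodalCurve.den, nodal, map_div₀, map_sub,
          map_mul, er, et, ea, eb, inv_div]

omit [Algebra.IsAlgebraic S L] in
/-- On `E₀[n]`, a residual `q`-power automorphism acts as multiplication by `± q`. -/
lemma smul_eq_sign_mul_smul (hσ : σ • A = A) {q : ℕ}
    (hφ : ∀ x ∈ A, res A (σ x) = φ (res A x)) (hq : ∀ z, φ z = z ^ q)
    {n : ℕ} (hn : A.valuation (n : L) = 1) {P : (W'⁄L).Point} (hP : InE0 A V P)
    (h' : n • P = 0) : σ • P = (N.sign σ * q) • P := by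
  have hmem : σ • P ∈ N.red.E0 := (N.red.inE0_smul_iff hσ hφ).mpr hP
  set Ps : N.red.E0 := ⟨σ • P, hmem⟩ with hPs
  set P0 : N.red.E0 := ⟨P, hP⟩ with hP0
  have hmu : N.mu Ps = N.mu ((N.sign σ * q) • P0) := by
    rw [map_zsmul]
    have hval : ∀ Q : N.red.E0, N.mu Q =
        Additive.ofMul (Units.mk0 (N.nodal.par (redFun A V (Q : (W'⁄L).Point)))
          (N.nodal.par_ne_zero _)) := fun Q => rfl
    rw [hval, hval, ← ofMul_zpow]
    refine congr_arg Additive.ofMul (Units.ext ?_)
    rw [Units.val_zpow_eq_zpow_val, Units.val_mk0, Units.val_mk0, hPs, hP0, N.par_smul hσ hφ, hq,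
      mul_comm, zpow_mul, zpow_natCast]
  have hE1 := (N.mu_eq_zero_iff (Ps - (N.sign σ * q) • P0)).mp (by rw [map_sub, hmu, sub_self])
  refine sub_eq_zero.mp (N.red.eq_zero_of_nsmul_eq_zero hn ?_ ?_)
  · simpa [hPs, hP0] using hE1
  · rw [nsmul_sub,
      show n • (σ • P) = σ • (n • P) from ((DistribSMul.toAddMonoidHom _ σ).map_nsmul n P).symm,
      show n • ((N.sign σ * q) • P) = (N.sign σ * q) • (n • P) from
        ((zsmulAddGroupHom (N.sign σ * q)).map_nsmul n P).symm,
      h', smul_zero, zsmul_zero, sub_zero]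

end Node

section Int

open Fermat.Agent.Arith

local notation "Q̄" => AlgebraicClosure ℚ

variable {A : ValuationSubring Q̄} {q : ℕ} {W : WeierstrassCurve ℤ}

/-- Frobenius at a prime of multiplicative reduction: with `ε = ±1` (split or not), it is `ε` on
components and `ε q` on torsion of nonsingular reduction. -/
theorem exists_sign_frobenius (hA : A.LiesOverPrime q) (hq : q.Prime) (hΔ0 : W.Δ ≠ 0)
    (hΔ : (q : ℤ) ∣ W.Δ) (hc₄ : ¬ (q : ℤ) ∣ W.c₄) {σ : Q̄ ≃ₐ[ℚ] Q̄}
    (hσ : A.IsFrobeniusAt σ q) :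
    ∃ ε : ℤ, (ε = 1 ∨ ε = -1) ∧
      (∀ P : ((W.map (Int.castRingHom ℚ))⁄Q̄).Point,
        InE0 A (W.map (Int.castRingHom (IsLocalRing.ResidueField A))) (σ • P - ε • P)) ∧
      ∀ (n : ℕ), ¬ q ∣ n → ∀ P : ((W.map (Int.castRingHom ℚ))⁄Q̄).Point,
        InE0 A (W.map (Int.castRingHom (IsLocalRing.ResidueField A))) P → n • P = 0 →
          σ • P = (ε * q) • P := by
  classical
  obtain ⟨N, -⟩ := exists_node_int hA hq hΔ0 hΔ hc₄
  obtain ⟨hs, hf⟩ := Reduction.res_frobenius hσ
  have hf' : ∀ x ∈ A, res A (σ x) = (residualFrobenius hA hq).toRingHom (res A x) := hf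
  exact ⟨N.sign σ, N.sign_eq_one_or σ, N.inE0_smul_sub_sign hs hf', fun n hn P hP h' =>
    N.smul_eq_sign_mul_smul hs hf' (fun z => residualFrobenius_apply hA hq z)
      (valuation_natCast_eq_one hA hq hn) hP h'⟩

/-- Frobenius at a prime of multiplicative reduction satisfies `(X - ε) (X - ε q)` on torsion of
order prime to `q`. -/
theorem exists_sign_frobenius_quadratic (hA : A.LiesOverPrime q) (hq : q.Prime) (hΔ0 : W.Δ ≠ 0)
    (hΔ : (q : ℤ) ∣ W.Δ) (hc₄ : ¬ (q : ℤ) ∣ W.c₄) {σ : Q̄ ≃ₐ[ℚ] Q̄}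
    (hσ : A.IsFrobeniusAt σ q) :
    ∃ ε : ℤ, (ε = 1 ∨ ε = -1) ∧ ∀ (n : ℕ), ¬ q ∣ n →
      ∀ P : ((W.map (Int.castRingHom ℚ))⁄Q̄).Point, n • P = 0 →
        σ • (σ • P - ε • P) = (ε * q) • (σ • P - ε • P) := by
  obtain ⟨ε, hε, h0, h1⟩ := exists_sign_frobenius hA hq hΔ0 hΔ hc₄ hσ
  refine ⟨ε, hε, fun n hn P h' => h1 n hn _ (h0 P) ?_⟩
  rw [nsmul_sub,
    show n • (σ • P) = σ • (n • P) from ((DistribSMul.toAddMonoidHom _ σ).map_nsmul n P).symm,
    show n • (ε • P) = ε • (n • P) from ((zsmulAddGroupHom ε).map_nsmul n P).symm,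
    h', zsmul_zero, sub_zero]
  rfl

end Int

end Fermat.Agent.EC.Multiplicative
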