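import Fermat.Agent.EC.Multiplicative.Int
import Mathlib.FieldTheory.Galois.Infinite

/-!
# Rational approximation of the node

An element fixed by the Galois group is rational, and `exists_int_near_node` approximates the
node of an integral equation at a multiplicative prime by integers.
-/

set_option autoImplicit false

open WeierstrassCurve WeierstrassCurve.Affine
open scoped WeierstrassCurve.Affine Pointwise
open Fermat.Agent.Arith Fermat.Agent.EC.Reduction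

namespace Fermat.Agent.EC.Multiplicative

local notation "Q̄" => AlgebraicClosure ℚ

variable {A : ValuationSubring Q̄} {q : ℕ} {W : WeierstrassCurve ℤ}

/-- The node is approximated by integers. -/
lemma exists_int_near_node (hA : A.LiesOverPrime q) (hq : q.Prime) (hc₄ : ¬ (q : ℤ) ∣ W.c₄)
    (N : Node A ((W.map (Int.castRingHom ℚ))⁄Q̄)
      (W.map (Int.castRingHom (IsLocalRing.ResidueField A)))) (M : ℕ) :
    ∃ r : ℤ, A.valuation ((r : Q̄) - N.r) ≤ A.valuation (q : Q̄) ^ M := by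
  have ha₁ : ((W.map (Int.castRingHom ℚ))⁄Q̄).toAffine.a₁ = (W.a₁ : Q̄) := by
    simp [Affine.baseChange, WeierstrassCurve.baseChange]
  have ha₂ : ((W.map (Int.castRingHom ℚ))⁄Q̄).toAffine.a₂ = (W.a₂ : Q̄) := by
    simp [Affine.baseChange, WeierstrassCurve.baseChange]
  have ha₃ : ((W.map (Int.castRingHom ℚ))⁄Q̄).toAffine.a₃ = (W.a₃ : Q̄) := by
    simp [Affine.baseChange, WeierstrassCurve.baseChange]
  have ha₄ : ((W.map (Int.castRingHom ℚ))⁄Q̄).toAffine.a₄ = (W.a₄ : Q̄) := by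
    simp [Affine.baseChange, WeierstrassCurve.baseChange]
  have ha₆ : ((W.map (Int.castRingHom ℚ))⁄Q̄).toAffine.a₆ = (W.a₆ : Q̄) := by
    simp [Affine.baseChange, WeierstrassCurve.baseChange]
  have h₃ := N.eq₃
  have h₄ := N.eq₄
  rw [ha₁, ha₃] at h₃
  rw [ha₁, ha₂, ha₄] at h₄
  have hG : 6 * N.r ^ 2 + (W.b₂ : Q̄) * N.r + (W.b₄ : Q̄) = 0 := by
    simp only [WeierstrassCurve.b₂, WeierstrassCurve.b₄]
    push_cast
    linear_combination (W.a₁ : Q̄) * h₃ + 2 * h₄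
  have hd2 : (N.a - N.b) ^ 2 = (W.b₂ : Q̄) + 12 * N.r := by
    rw [show (N.a - N.b) ^ 2 = (N.a + N.b) ^ 2 - 4 * (N.a * N.b) by ring, N.sum_ab, N.mul_ab,
      ha₁, ha₂]
    simp only [WeierstrassCurve.b₂]
    push_cast
    ring
  have hc4eq : (W.c₄ : Q̄) = ((W.b₂ : Q̄) + 12 * N.r) ^ 2 := by
    simp only [WeierstrassCurve.c₄]
    push_cast
    linear_combination (-24 : Q̄) * hG
  have hN : (18 * W.b₆ - W.b₂ * W.b₄ : ℤ) - N.r * (W.c₄ : Q̄) = 72 * N.c := by
    have := xNode_eq_of_node (W := ((W.map (Int.castRingHom ℚ))⁄Q̄).toAffine) (r := N.r) (t := N.t)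
      N.eq₃ N.eq₄
    simp only [Affine.baseChange, WeierstrassCurve.baseChange, map_b₂, map_b₄, map_b₆, map_c₄,
      eq_intCast, map_intCast, map_a₁, map_a₂, map_a₃, map_a₄, map_a₆] at this
    simp only [Node.c, nodeConst, ha₁, ha₂, ha₃, ha₄, ha₆]
    push_cast
    linear_combination this
  have := Fact.mk hq
  obtain ⟨i, hi⟩ : ∃ i : ℤ, (q : ℤ) ∣ W.c₄ * i - 1 := by
    have hu : (W.c₄ : ZMod q) ≠ 0 := fun e => hc₄ ((ZMod.intCast_zmod_eq_zero_iff_dvd _ q).mp e)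
    refine ⟨((W.c₄ : ZMod q)⁻¹).val, (ZMod.intCast_zmod_eq_zero_iff_dvd _ q).mp ?_⟩
    push_cast
    rw [ZMod.natCast_val, ZMod.cast_id, mul_inv_cancel₀ hu, sub_self]
  have small : ∀ {m : ℤ}, (q : ℤ) ∣ m → A.valuation (m : Q̄) < 1 := fun {m} h =>
    (intCast_mem_nonunits_iff hA hq m).mpr h
  have le_one : ∀ m : ℤ, A.valuation (m : Q̄) ≤ 1 := fun m =>
    (A.valuation_le_one_iff _).mpr (intCast_mem A m)
  have hr1 : A.valuation N.r ≤ 1 := (A.valuation_le_one_iff _).mpr N.hr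
  set r₀ : ℤ := (18 * W.b₆ - W.b₂ * W.b₄) * i with hr₀
  have hclose : A.valuation ((r₀ : Q̄) - N.r) < 1 := by
    have e : (r₀ : Q̄) - N.r = 72 * N.c * (i : Q̄) + N.r * ((W.c₄ * i - 1 : ℤ) : Q̄) := by
      rw [hr₀, ← hN]
      push_cast
      ring
    rw [e]
    refine A.valuation.map_add_lt ?_ ?_
    · rw [map_mul, map_mul]
      refine (mul_le_of_le_one_right zero_le (le_one i)).trans_lt ?_
      exact (mul_le_of_le_one_left zero_le
        ((A.valuation_le_one_iff _).mpr (natCast_mem A 72))).trans_lt N.par.hc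
    · rw [map_mul]
      exact (mul_le_of_le_one_left zero_le hr1).trans_lt (small hi)
  have hunit : ∀ {r : ℤ}, A.valuation ((r : Q̄) - N.r) < 1 →
      A.valuation (6 * ((r : Q̄) + N.r) + (W.b₂ : Q̄)) = 1 := by
    intro r hr
    rw [show 6 * ((r : Q̄) + N.r) + (W.b₂ : Q̄) = 6 * ((r : Q̄) - N.r) + (N.a - N.b) ^ 2 by
      rw [hd2]; ring]
    have h1 : A.valuation ((N.a - N.b) ^ 2) = 1 := by rw [map_pow, N.par.hab, one_pow]
    rw [A.valuation.map_add_eq_of_lt_right ?_, h1]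
    rw [h1, map_mul]
    exact (mul_le_of_le_one_left zero_le
      ((A.valuation_le_one_iff _).mpr (natCast_mem A 6))).trans_lt hr
  have hGv : ∀ {r : ℤ}, A.valuation ((r : Q̄) - N.r) < 1 →
      A.valuation ((6 * r ^ 2 + W.b₂ * r + W.b₄ : ℤ) : Q̄) = A.valuation ((r : Q̄) - N.r) := by
    intro r hr
    rw [show ((6 * r ^ 2 + W.b₂ * r + W.b₄ : ℤ) : Q̄)
        = ((r : Q̄) - N.r) * (6 * ((r : Q̄) + N.r) + (W.b₂ : Q̄)) by
      push_cast; linear_combination hG, map_mul, hunit hr, mul_one]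
  have key : ∀ k : ℕ, ∃ r : ℤ, A.valuation ((r : Q̄) - N.r) < 1 ∧
      (q : ℤ) ^ k ∣ 6 * r ^ 2 + W.b₂ * r + W.b₄ := by
    intro k
    induction k with
    | zero => exact ⟨r₀, hclose, by simp⟩
    | succ k ih =>
      obtain ⟨r, hr, g, hg⟩ := ih
      have hd : ¬ (q : ℤ) ∣ 12 * r + W.b₂ := by
        intro h
        refine absurd (small h) (not_lt.mpr (le_of_eq ?_))
        rw [show ((12 * r + W.b₂ : ℤ) : Q̄) = (6 * ((r : Q̄) + N.r) + (W.b₂ : Q̄))
          + 6 * ((r : Q̄) - N.r) by push_cast; ring, A.valuation.map_add_eq_of_lt_left, hunit hr]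
        rw [hunit hr, map_mul]
        exact (mul_le_of_le_one_left zero_le
          ((A.valuation_le_one_iff _).mpr (natCast_mem A 6))).trans_lt hr
      obtain ⟨j, hj⟩ : ∃ j : ℤ, (q : ℤ) ∣ (12 * r + W.b₂) * j - 1 := by
        have hu : ((12 * r + W.b₂ : ℤ) : ZMod q) ≠ 0 :=
          fun e => hd ((ZMod.intCast_zmod_eq_zero_iff_dvd _ q).mp e)
        refine ⟨(((12 * r + W.b₂ : ℤ) : ZMod q)⁻¹).val,
          (ZMod.intCast_zmod_eq_zero_iff_dvd _ q).mp ?_⟩
        rw [Int.cast_sub, Int.cast_mul, Int.cast_natCast, ZMod.natCast_val, ZMod.cast_id,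
          mul_inv_cancel₀ hu, Int.cast_one, sub_self]
      obtain ⟨u, hu⟩ := hj
      rcases Nat.eq_zero_or_pos k with rfl | hk
      · have h0 : A.valuation ((6 * r ^ 2 + W.b₂ * r + W.b₄ : ℤ) : Q̄) < 1 := (hGv hr).trans_lt hr
        exact ⟨r, hr, by simpa using (intCast_mem_nonunits_iff hA hq _).mp h0⟩
      refine ⟨r - j * ((q : ℤ) ^ k * g), ?_, ?_⟩
      · have e : ((r - j * ((q : ℤ) ^ k * g) : ℤ) : Q̄) - N.r =
            ((r : Q̄) - N.r) - ((j * ((q : ℤ) ^ k * g) : ℤ) : Q̄) := by push_cast; ring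
        rw [e]
        exact A.valuation.map_sub_lt hr
          (small (dvd_mul_of_dvd_right ((dvd_pow_self _ hk.ne').mul_right g) j))
      · refine ⟨-(g * u) + 6 * j ^ 2 * g ^ 2 * (q : ℤ) ^ (k - 1), ?_⟩
        have hk1 : (q : ℤ) ^ k * (q : ℤ) ^ k = (q : ℤ) ^ (k + 1) * (q : ℤ) ^ (k - 1) := by
          rw [← pow_add, ← pow_add]; congr 1; omega
        linear_combination hg - (q : ℤ) ^ k * g * hu + 6 * j ^ 2 * g ^ 2 * hk1
  obtain ⟨r, hr, hM⟩ := key M
  refine ⟨r, ?_⟩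
  rw [← hGv hr]
  obtain ⟨g, hg⟩ := hM
  rw [hg]
  push_cast
  rw [map_mul, map_pow]
  exact mul_le_of_le_one_right zero_le (le_one g)

end Fermat.Agent.EC.Multiplicative
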